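import Mathlib
import Fermat.Agent.H12.LL.LLmain
import Fermat.Agent.TFin.WComp
import Fermat.Agent.TFin.Step1
import Fermat.Agent.H25.SelJ

/-!
# Auxiliary primes at which there is no ramification
-/

set_option autoImplicit false
set_option linter.unusedSectionVars false
set_option linter.style.haveILetI false

noncomputable section

namespace Fermat.Agent.LU

open Fermat.Agent.TC Fermat.Agent.TW Fermat.Agent.CC Fermat.Agent.H25.GE Fermat.Agent.H25.TR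
open Fermat.Agent.Ell Fermat.Agent.H25 Fermat.Agent.H25.PR Fermat.Agent.H25.PT
open Fermat.Agent.H22 Fermat.Agent.H12.LL Fermat.Agent.TFin
open Fermat.Agent.H04 (DN M2)
open IsLocalRing CongruenceSubgroup Matrix

/-- auxiliary prime: `W[p]` is unramified at `q` and there is no Steinberg deformation -/
structure AuxOk (W : WeierstrassCurve ℤ) (p q : ℕ) [hp : Fact p.Prime] : Prop where
  ne : q ≠ p
  unr : UnrAt W p q
  tr : ∀ A : ValuationSubring Qb, A.LiesOverPrime q → ∀ φ : GQ, A.IsFrobeniusAt φ q →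
    (PadicInt.toZMod (LinearMap.trace ℤ_[p] (TT (WQ W) p) (rr (WQ W) p φ))) ^ 2 ≠
      ((q : ZMod p) + 1) ^ 2

/-- The conditions on the level of the points, with auxiliary primes. -/
def LvOkU (p : ℕ) (b : Prop) (St Ux : Finset Nat.Primes) (N0 : ℕ) : Prop :=
  LvOk p b St N0 ∧ ∀ q ∈ Ux, ¬ (q : ℕ) ∣ N0

/-- The input in mode `b` at `p`, with auxiliary primes. -/
def ModeInU (W : WeierstrassCurve ℤ) (p : ℕ) [hp : Fact p.Prime] (b : Prop)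
    (St Ux : Finset Nat.Primes) : Prop :=
  ∀ (hΔ : W.Δ ≠ 0) (hirr : W.ModRepIsIrreducible p) (hp2 : p ≠ 2)
    (O : Type) [CommRing O] [IsDomain O] [IsDiscreteValuationRing O]
    [IsAdicComplete (maximalIdeal O) O] [Finite (ResidueField O)] [CharZero O] [Algebra ℤ_[p] O]
    [IsLocalHom (algebraMap ℤ_[p] O)]
    (K : Type) [Field K] [IsAlgClosed K] [Algebra O K] [FaithfulSMul O K]
    (ζ : ResidueField O), IsPrimitiveRoot ζ (p ^ 2 - 1) → ∀ (hpO : (p : O) ∈ maximalIdeal O)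
    (Ge : Geo p) (S T : Finset Nat.Primes), T ⊆ S → St ⊆ S → Ux ⊆ S → (∀ q ∈ St, q ∉ T) →
    (∀ q ∈ Ux, q ∉ T) → (∀ q ∈ Ux, q ∉ St) →
    (∀ q : Nat.Primes, q ∉ S → UnrAt W p q) →
    (⟨p, hp.out⟩ : Nat.Primes) ∈ S → (∀ t ∈ T, (t : ℕ) ≠ p ∧ UnrAt W p t) →
    (∀ q ∈ St, StOk W p q) → (∀ q ∈ Ux, (q : ℕ) ≠ p ∧ UnrAt W p q) →
    (∀ q ∈ S, q ∉ T → q ∉ St → q ∉ Ux → (q : ℕ) ≠ p → ¬ UnrAt W p q) →
    TWData p S (RDW hΔ hirr hp2 O).rbar (chiB hΔ hirr hp2 O) →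
    ∃ Pc : ∀ {S' : Finset Nat.Primes} {bad : Finset ℕ},
        CData (RDW hΔ hirr hp2 O) S' bad → Prop,
      (∀ {S' : Finset Nat.Primes} {bad : Finset ℕ} (H : HIn (RDW hΔ hirr hp2 O) K p S' bad),
        (∀ x, LvOkU p b St Ux (H.np x).N0) →
        Pc (H.cd hpO Ge (RDW_isCyc hΔ hirr hp2) (RDW_hc hΔ hirr hp2))) ∧
      ∃ r : ℕ, ∀ n D₀ : ℕ, n ≠ 0 → D₀ ≠ 0 → ∃ qv : Fin r → Nat.Primes,
        Function.Injective qv ∧ (∀ j, ¬ (qv j : ℕ) ∣ D₀) ∧ (∀ j, qv j ∉ S) ∧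
        (∀ j, TWData.IsTW p n (RDW hΔ hirr hp2 O).rbar (chiB hΔ hirr hp2 O) (qv j)) ∧
        SelOut (RDW hΔ hirr hp2 O) p Pc S T r qv

/-- The input in mode `b` at `p` for the towers, with auxiliary primes; the condition holds also
for the component of the curve. -/
def ModeWU (W : WeierstrassCurve ℤ) (p : ℕ) [hp : Fact p.Prime] (b : Prop)
    (Ux : Finset Nat.Primes) : Prop :=
  ∀ (hΔ : W.Δ ≠ 0) (hirr : W.ModRepIsIrreducible p) (hp2 : p ≠ 2)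
    (O : Type) [CommRing O] [IsDomain O] [IsDiscreteValuationRing O]
    [IsAdicComplete (maximalIdeal O) O] [Finite (ResidueField O)] [CharZero O] [Algebra ℤ_[p] O]
    [IsLocalHom (algebraMap ℤ_[p] O)]
    (K : Type) [Field K] [IsAlgClosed K] [Algebra O K] [FaithfulSMul O K]
    (ζ : ResidueField O), IsPrimitiveRoot ζ (p ^ 2 - 1) → ∀ (hpO : (p : O) ∈ maximalIdeal O)
    (Ge : Geo p) (S T : Finset Nat.Primes), T ⊆ S → Ux ⊆ S → (∀ q ∈ Ux, q ∉ T) →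
    (∀ q : Nat.Primes, q ∉ S → UnrAt W p q) →
    (⟨p, hp.out⟩ : Nat.Primes) ∈ S → (∀ t ∈ T, (t : ℕ) ≠ p ∧ UnrAt W p t) →
    (∀ q ∈ Ux, (q : ℕ) ≠ p ∧ W.IsGoodPrimeFor q) →
    (∀ q ∈ S, q ∉ T → q ∉ Ux → (q : ℕ) ≠ p → ¬ UnrAt W p q) →
    TWData p S (RDW hΔ hirr hp2 O).rbar (chiB hΔ hirr hp2 O) →
    ∃ Pc : ∀ {S' : Finset Nat.Primes} {bad : Finset ℕ},
        CData (RDW hΔ hirr hp2 O) S' bad → Prop,
      (∀ {S' : Finset Nat.Primes} {bad : Finset ℕ} (H : HIn (RDW hΔ hirr hp2 O) K p S' bad),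
        (∀ x, LvOkU p b ∅ Ux (H.np x).N0) →
        Pc (H.cd hpO Ge (RDW_isCyc hΔ hirr hp2) (RDW_hc hΔ hirr hp2))) ∧
      (∀ {S' : Finset Nat.Primes} {bad : Finset ℕ}
        (hS : ∀ q : Nat.Primes, q ∉ S' → (q : ℕ) ≠ p ∧ W.IsGoodPrimeFor q)
        (hbad : ∀ ℓ : ℕ, ℓ.Prime → ℓ ∉ bad → ℓ ≠ p ∧ W.IsGoodPrimeFor ℓ),
        Pc (WC hΔ hirr hp2 O S' bad hS hbad)) ∧
      ∃ r : ℕ, ∀ n D₀ : ℕ, n ≠ 0 → D₀ ≠ 0 → ∃ qv : Fin r → Nat.Primes,
        Function.Injective qv ∧ (∀ j, ¬ (qv j : ℕ) ∣ D₀) ∧ (∀ j, qv j ∉ S) ∧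
        (∀ j, TWData.IsTW p n (RDW hΔ hirr hp2 O).rbar (chiB hΔ hirr hp2 O) (qv j)) ∧
        SelOut (RDW hΔ hirr hp2 O) p Pc S T r qv

/-- the unramified local condition at the standard place above `q` (for `exists_SelB_modes`) -/
def UnrC {O : Type} [CommRing O] [IsLocalRing O] (q : Nat.Primes) (s : GQ →* M2 (DN O)) : Prop :=
  ∀ σ ∈ (plv (q : ℕ) q.2).inertiaSubgroupIn ℚ, s σ = 1

/-- the points of a component are unramified at `q` -/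
def UnrPt {O k : Type} [CommRing O] [IsLocalRing O] [Field k] {D : RD O k}
    {S : Finset Nat.Primes} {bad : Finset ℕ} (H : CData D S bad) (q : Nat.Primes) : Prop :=
  ∀ x, ∀ σ ∈ (plv (q : ℕ) q.2).inertiaSubgroupIn ℚ, ∀ g : GQ, H.t x (g * σ) = H.t x g

/-- the removal of the primes congruent to one modulo `p` (with an auxiliary prime `r` in the
levels) -/
def LLpropU (W : WeierstrassCurve ℤ) (p : ℕ) [Fact p.Prime] (b : Prop) (r : ℕ) : Prop :=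
  ∀ (T : Finset Nat.Primes) (M₀ : ℕ), r ∣ M₀ → Squarefree M₀ →
    Nat.Coprime (Q0 T) M₀ → (p ∣ M₀ ↔ b) →
    (p ∣ M₀ → ¬ W.IsResiduallyModularOfLevel p (Q0 T * (M₀ / p))) →
    (∀ q : ℕ, q.Prime → q ≠ p → q ≠ r → q ∣ M₀ → ¬ UnrAt W p q) →
    (∀ t ∈ T, (t : ℕ) ≠ p) → (∀ t ∈ T, (t : ℕ) ≡ 1 [MOD p]) → (∀ t ∈ T, UnrAt W p t) →
    (∀ t ∈ T, ∀ A : ValuationSubring Qb, A.LiesOverPrime (t : ℕ) → ∀ φ : GQ,
      A.IsFrobeniusAt φ t →
      (PadicInt.toZMod (LinearMap.trace ℤ_[p] (TT (WQ W) p) (rr (WQ W) p φ))) ^ 2 = 4) →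
    W.IsResiduallyModularOfLevel p (Q0 T * M₀) → W.IsResiduallyModularOfLevel p M₀

/-- The minimal level (all primes of the level are ramified, or equal to `p`); no parity
condition. The towers will use the levels `N * r * ⋯`. -/
structure MinLevelU (W : WeierstrassCurve ℤ) (p : ℕ) [Fact p.Prime] (N : ℕ) : Prop where
  sq : Squarefree N
  rm : W.IsResiduallyModularOfLevel p N
  /-- the mode at `p` -/
  mode : p ∣ N ↔ ModeS W p
  dvd_disc : ∀ q : ℕ, q.Prime → q ∣ N → (q : ℤ) ∣ W.Δ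
  /-- the primes of the level are ramified -/
  ram : ∀ q : ℕ, q.Prime → q ≠ p → q ∣ N → ¬ UnrAt W p q

/-- the auxiliary primes for `p = 3` -/
structure Aux3 (W : WeierstrassCurve ℤ) (r : ℕ) : Prop extends AuxOk W 3 r where
  prime : r.Prime
  mod3 : r % 3 = 2
  good : W.IsGoodPrimeFor r

end Fermat.Agent.LU
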