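import Mathlib
import Fermat.Agent.H26.TowB
import Fermat.Agent.H26U.Def

/-!
# The levels of a tower, with an auxiliary prime
-/

set_option autoImplicit false
set_option linter.unusedSectionVars false
set_option linter.style.haveILetI false

noncomputable section

namespace Fermat.Agent.LU

open Fermat.Agent.TC Fermat.Agent.TW Fermat.Agent.CC Fermat.Agent.H25.GE Fermat.Agent.H25.TR
open Fermat.Agent.Ell Fermat.Agent.H25 Fermat.Agent.H25.PR Fermat.Agent.H25.PT
open Fermat.Agent.H22 Fermat.Agent.H12.LL Fermat.Agent.TFin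
open IsLocalRing CongruenceSubgroup

section tow

variable {W : WeierstrassCurve ℤ} {p : ℕ} [hp : Fact p.Prime]
  {hΔ : W.Δ ≠ 0} {hirr : W.ModRepIsIrreducible p} {hp2 : p ≠ 2}
  {O : Type} [CommRing O] [IsDomain O] [IsDiscreteValuationRing O]
  [IsAdicComplete (maximalIdeal O) O] [Algebra ℤ_[p] O] [IsLocalHom (algebraMap ℤ_[p] O)]
  [Finite (ResidueField O)] [CharZero O] (I : FIn hΔ hirr hp2 O)
  (K : Type) [Field K] [Algebra O K]

/-- **A tower of levels** over the level `N r`. -/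
structure TowU (N r : ℕ) where
  m : ℕ
  e : Fin m ≃ (unrT W p)
  X : Fin (m + 1) → CmpT (I.F K)
  start : (X 0).N = N * r
  dvd : ∀ j, N * r ∣ (X j).N
  sq : ∀ j, Squarefree (X j).N
  step : ∀ t : Fin m, (X t.succ).N = (X t.castSucc).N * ((e t : Nat.Primes) : ℕ) ∧
      ¬ ((e t : Nat.Primes) : ℕ) ∣ (X t.castSucc).N
  pN : ∀ j, p ∣ (X j).N ↔ p ∣ N
  disc : ∀ (j : Fin (m + 1)) (q : ℕ), q.Prime → q ∣ (X j).N → (q : ℤ) ∣ W.Δ ∨ q = r
  rm : ∀ j, W.IsResiduallyModularOfLevel p (X j).N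
  ell : ∀ j, Ell p (X j).N

variable {I K}

namespace TowU

variable {N r : ℕ} (Tw : TowU I K N r)

/-- the framed primes -/
def tv (t : Fin Tw.m) : Nat.Primes := Tw.e t

theorem tv_mem (t : Fin Tw.m) : Tw.tv t ∈ unrT W p := (Tw.e t).2

include hΔ in
theorem tv_ne (t : Fin Tw.m) : (Tw.tv t : ℕ) ≠ p := ((mem_unrT hΔ hp.out).mp (Tw.tv_mem t)).2.1

include hΔ in
theorem tv_dvd (t : Fin Tw.m) : ((Tw.tv t : ℕ) : ℤ) ∣ W.Δ :=
  ((mem_unrT hΔ hp.out).mp (Tw.tv_mem t)).1

include hΔ in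
theorem tv_unr (t : Fin Tw.m) : UnrAt W p (Tw.tv t) :=
  ((mem_unrT hΔ hp.out).mp (Tw.tv_mem t)).2.2

end TowU

variable (I K) in
include hΔ hirr in
/-- **Existence of the tower.** -/
theorem exists_towU (hpO : (p : O) ∈ maximalIdeal O) {r : ℕ} (hr : r.Prime) (hr3 : r % 3 = 2)
    (hrΔ : ¬ (r : ℤ) ∣ W.Δ) (hrp : r ≠ p) (hIS : I.S = insert ⟨r, hr⟩ (bigS W p))
    (hID : I.D₀ = p * W.Δ.natAbs * r) {N : ℕ} (hN : MinLevelU W p N) :
    Nonempty (TowU I K N r) := by
  classical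
  have hN0 : N ≠ 0 := hN.sq.ne_zero
  have hrN : ¬ r ∣ N := fun h => hrΔ (hN.dvd_disc r hr h)
  have hNr0 : N * r ≠ 0 := mul_ne_zero hN0 hr.ne_zero
  have hNrsq : Squarefree (N * r) := by
    rw [Nat.squarefree_mul_iff]
    exact ⟨((Nat.Prime.coprime_iff_not_dvd hr).mpr hrN).symm, hN.sq, hr.prime.squarefree⟩
  let m := (unrT W p).card
  let e : Fin m ≃ (unrT W p) := (unrT W p).equivFin.symm
  let tv : Fin m → Nat.Primes := fun t => (e t : Nat.Primes)
  have hinj : Function.Injective tv := fun a b h => e.injective (Subtype.ext h)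
  have hT : ∀ t, ((tv t : ℕ) : ℤ) ∣ W.Δ ∧ (tv t : ℕ) ≠ p ∧ UnrAt W p (tv t) := fun t =>
    (mem_unrT hΔ hp.out).mp (e t).2
  have h2 : ∀ t : Fin m, (0 : Fin (m + 1)) ≤ t.castSucc → ¬ (tv t : ℕ) ∣ N * r := by
    intro t _ h
    rcases (Nat.Prime.dvd_mul (tv t).2).mp h with h | h
    · exact hN.ram _ (tv t).2 (hT t).2.1 h (hT t).2.2
    · exact hrΔ ((Nat.prime_dvd_prime_iff_eq (tv t).2 hr).mp h ▸ (hT t).1)
  have hL0 : ∀ j, towLev (N * r) tv 0 j ≠ 0 := fun j => towLev_ne_zero hNr0 j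
  have hdisc : ∀ (j : Fin (m + 1)) (q : ℕ), q.Prime → q ∣ towLev (N * r) tv 0 j →
      (q : ℤ) ∣ W.Δ ∨ q = r := by
    intro j q hq h
    rcases prime_dvd_towLev hq h with h | ⟨t, -, rfl⟩
    · rcases (Nat.Prime.dvd_mul hq).mp h with h | h
      · exact Or.inl (hN.dvd_disc q hq h)
      · exact Or.inr ((Nat.prime_dvd_prime_iff_eq hq hr).mp h)
    · exact Or.inl (hT t).1
  have hsq : ∀ j, Squarefree (towLev (N * r) tv 0 j) := fun j =>
    squarefree_towLev hNrsq hinj h2 j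
  have hrm : ∀ j, W.IsResiduallyModularOfLevel p (towLev (N * r) tv 0 j) := fun j =>
    H18R.isResiduallyModular_mono hΔ hirr hN.rm ((dvd_mul_right _ _).trans (dvd_towLev j)) (hL0 j)
  have hell : ∀ j, Ell p (towLev (N * r) tv 0 j) := fun j =>
    Fermat.Agent.H24R.ell_of_dvd hr hr3 ((dvd_mul_left _ _).trans (dvd_towLev j))
  have hX : ∀ j, ∃ X : CmpT (I.F K), X.N = towLev (N * r) tv 0 j := by
    intro j
    refine I.exists_cmpT K hpO (hL0 j) (hell j) ?_ (hrm j) fun q hq => ?_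
    · rw [hID]
      refine squarefree_dvd (hsq j) fun q hq h => ?_
      rcases hdisc j q hq h with h | h
      · exact ((Int.natCast_dvd.mp h).mul_left _).mul_right _
      · rw [h]; exact dvd_mul_left _ _
    · rw [hIS, Finset.mem_insert, mem_bigS hΔ hp.out]
      rcases (Nat.Prime.dvd_mul q.2).mp hq with h | h
      · rcases hdisc j q q.2 h with h | h
        · exact Or.inr (Or.inr h)
        · exact Or.inl (Subtype.ext h)
      · exact Or.inr (Or.inl ((Nat.prime_dvd_prime_iff_eq q.2 hp.out).mp h))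
  choose X hXN using hX
  exact ⟨{
    m := m
    e := e
    X := X
    start := by rw [hXN, towLev_start]
    dvd := fun j => by rw [hXN]; exact dvd_towLev j
    sq := fun j => by rw [hXN]; exact hsq j
    step := fun t => by
      rw [hXN, hXN]
      refine ⟨towLev_succ t (Fin.zero_le _), fun h => ?_⟩
      rcases prime_dvd_towLev (tv t).2 h with h | ⟨s, hs, h⟩
      · exact h2 t (Fin.zero_le _) h
      · have h3 : t = s := hinj (Subtype.ext h)
        rw [← h3] at hs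
        exact lt_irrefl _ (mem_raisedSet.mp hs).2
    pN := fun j => by
      rw [hXN]
      refine ⟨fun h => ?_, fun h => (h.mul_right r).trans (dvd_towLev j)⟩
      rcases prime_dvd_towLev hp.out h with h | ⟨s, -, h⟩
      · rcases (Nat.Prime.dvd_mul hp.out).mp h with h | h
        · exact h
        · exact absurd ((Nat.prime_dvd_prime_iff_eq hp.out hr).mp h).symm hrp
      · exact absurd h.symm (hT s).2.1
    disc := fun j q hq h => hdisc j q hq (by rw [← hXN]; exact h)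
    rm := fun j => by rw [hXN]; exact hrm j
    ell := fun j => by rw [hXN]; exact hell j }⟩

variable (I K) in
include hΔ hirr in
/-- **Existence of the tower** (the auxiliary prime as an element of `Nat.Primes`). -/
theorem exists_towU' (hpO : (p : O) ∈ maximalIdeal O) {r : Nat.Primes} (hr3 : (r : ℕ) % 3 = 2)
    (hrΔ : ¬ ((r : ℕ) : ℤ) ∣ W.Δ) (hrp : (r : ℕ) ≠ p) (hIS : I.S = insert r (bigS W p))
    (hID : I.D₀ = p * W.Δ.natAbs * r) {N : ℕ} (hN : MinLevelU W p N) :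
    Nonempty (TowU I K N r) :=
  exists_towU I K hpO r.2 hr3 hrΔ hrp hIS hID hN

namespace TowU

variable {N r : ℕ} (Tw : TowU I K N r) [IsAlgClosed K] [FaithfulSMul O K]

/-- no square divides the levels of the points -/
theorem not_sq_dvd_lvl (j : Fin (Tw.m + 1)) (n : ℕ) (x : ((Tw.X j).toCmp.cd 1 n).X) {q : ℕ}
    (hq : q.Prime) (hqD : q ∣ I.D₀) : ¬ q * q ∣ (Tw.X j).toCmp.lvl 1 n x :=
  (Tw.X j).not_sq_dvd_lvl n x hq (fun h => hq.not_isUnit (Tw.sq j q h)) hqD

/-- the levels of the points in the two modes at `p` -/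
theorem lvOk {b : Prop} (hr : r.Prime) (hr3 : r % 3 = 2) (hrp : r ≠ p) (hbN : p ∣ N ↔ b)
    (hnew : NewP W p p) (hS : p ∣ N → ModeS W p) (j : Fin (Tw.m + 1)) (n : ℕ)
    (x : ((Tw.X j).toCmp.cd 1 n).X) : LvOk p b ∅ ((Tw.X j).toCmp.lvl 1 n x) := by
  refine ⟨Tw.not_sq_dvd_lvl j n x hp.out I.hpD₀, fun hb => ?_, fun hb => ?_,
    fun q hq => absurd hq (Finset.notMem_empty q)⟩
  · refine (Tw.X j).not_dvd_lvl n x hp.out (fun h => hb (hbN.mp ?_)) I.hpD₀
    exact (Tw.pN j).mp h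
  · have hpN : p ∣ N := hbN.mpr hb
    have hpX : p ∣ (Tw.X j).N := (Tw.pN j).mpr hpN
    have h1 := (hS hpN).not_rm hΔ hirr hp2 (Tw.sq j) hpX (K := 1)
      (by rw [one_mul]; exact Tw.sq j)
    rw [one_mul] at h1
    obtain ⟨c, hc⟩ := hpX
    rw [hc, Nat.mul_div_cancel_left c hp.out.pos] at h1
    have hc0 : c ≠ 0 := by
      rintro rfl
      exact (Tw.sq j).ne_zero (by rw [hc, mul_zero])
    haveI : NeZero c := ⟨hc0⟩
    have hXN : (Tw.X j).N = c * p := by rw [hc, mul_comm]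
    refine hnew hΔ hirr hp2 O K I (Tw.X j).toCmp 1 n c hXN ?_ ?_ ?_ ?_ x
    · intro h
      have h5 : p * p ∣ (Tw.X j).N := by rw [hc]; exact mul_dvd_mul_left p h
      exact hp.out.not_isUnit (Tw.sq j _ h5)
    · exact fun h => hp.out.one_lt.ne' (Nat.dvd_one.mp h)
    · refine Fermat.Agent.H24R.ell_of_dvd hr hr3 ?_
      have h2 : r ∣ p * c := by rw [← hc]; exact (dvd_mul_left _ _).trans (Tw.dvd j)
      refine ((Nat.Prime.dvd_mul hr).mp h2).resolve_left fun h => ?_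
      exact hrp ((Nat.prime_dvd_prime_iff_eq hr hp.out).mp h)
    · by_contra hne
      have hd : c ∣ I.D₀ := (Dvd.intro _ hXN.symm).trans (Tw.X j).hND
      exact h1 (I.rm_of_ne n (N := c) hd dvd_rfl hne)

end TowU

end tow

end Fermat.Agent.LU
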