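import Mathlib
import Fermat.Agent.H26U.TowU
import Fermat.Agent.H26.Tower
import Fermat.Agent.H26.ModeWF
import Fermat.Agent.H13.LL.ModeWT

/-!
# The output of the towers with an auxiliary prime, in the modes `F` and `S`
-/

set_option autoImplicit false
set_option linter.unusedSectionVars false
set_option linter.style.haveILetI false

noncomputable section

namespace Fermat.Agent.LU

open Fermat.Agent.TC Fermat.Agent.TW Fermat.Agent.CC Fermat.Agent.H25.GE Fermat.Agent.H25.TR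
open Fermat.Agent.Ell Fermat.Agent.H25 Fermat.Agent.H25.PR Fermat.Agent.H25.PT
open Fermat.Agent.H22 Fermat.Agent.H12.LL Fermat.Agent.TFin Fermat.Agent.H25.SB
open IsLocalRing CongruenceSubgroup Matrix

section

variable {W : WeierstrassCurve ℤ} {p : ℕ} [hp : Fact p.Prime]
  {hΔ : W.Δ ≠ 0} {hirr : W.ModRepIsIrreducible p} {hp2 : p ≠ 2}
  {O : Type} [CommRing O] [IsDomain O] [IsDiscreteValuationRing O]
  [IsAdicComplete (maximalIdeal O) O] [Algebra ℤ_[p] O] [IsLocalHom (algebraMap ℤ_[p] O)]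
  [Finite (ResidueField O)] [CharZero O] (I : FIn hΔ hirr hp2 O)
  (K : Type) [Field K] [Algebra O K] [IsAlgClosed K] [FaithfulSMul O K]

/-- the bound for the Selmer groups gives the output of the tower -/
theorem finOut_of_selB (hss : W.IsSemistableModel) (hpO : (p : O) ∈ maximalIdeal O) {r : Nat.Primes}
    (hr3 : (r : ℕ) % 3 = 2) (hrΔ : ¬ ((r : ℕ) : ℤ) ∣ W.Δ) (hrp : (r : ℕ) ≠ p)
    (hIS : I.S = insert r (bigS W p)) (hID : I.D₀ = p * W.Δ.natAbs * r)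
    {N : ℕ} (hN : MinLevelU W p N) {b : Prop} (hbN : p ∣ N ↔ b) (hnew : NewP W p p)
    (hSel : ∀ (n : ℕ) (κ : Type) [Finite κ] [Nonempty κ]
      (H : κ → CData (RDW hΔ hirr hp2 O) (I.Sn n) (I.Dn n * p).primeFactors)
      (hbar : HBar (RDW hΔ hirr hp2 O) (I.Sn n)),
      (∀ i, (∃ H' : HIn (RDW hΔ hirr hp2 O) K p (I.Sn n) (I.Dn n * p).primeFactors,
          H i = H'.cd hpO I.Ge (RDW_isCyc hΔ hirr hp2) (RDW_hc hΔ hirr hp2) ∧
          ∀ x, LvOk p b ∅ (H'.np x).N0) ∨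
        (∃ (hS : ∀ q : Nat.Primes, q ∉ I.Sn n → (q : ℕ) ≠ p ∧ W.IsGoodPrimeFor q)
          (hbad : ∀ ℓ : ℕ, ℓ.Prime → ℓ ∉ (I.Dn n * p).primeFactors → ℓ ≠ p ∧
            W.IsGoodPrimeFor ℓ), H i = WC hΔ hirr hp2 O _ _ hS hbad)) →
      (∀ q ∈ I.S, (q : ℕ) ≠ p → ∀ i x, ∀ τ ∈ (plv (q : ℕ) q.2).inertiaSubgroupIn ℚ,
        (H i).t x τ = 2) →
      SelB H hbar I.r (fun t : (unrT W p) => (t : Nat.Primes))) :
    FinOut W := by
  classical
  obtain ⟨Tw⟩ := exists_towU' I K hpO hr3 hrΔ hrp hIS hID hN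
  have hSg : ∀ q : Nat.Primes, q ∉ I.S → (q : ℕ) ≠ p ∧ W.IsGoodPrimeFor q := by
    intro q hq
    rw [hIS] at hq
    exact not_or.mp fun h => hq (Finset.mem_insert_of_mem ((mem_bigS hΔ hp.out).mpr h))
  refine I.tower hss hSg (tv := Tw.tv) Tw.tv_ne Tw.tv_dvd Tw.tv_unr Tw.X 0
    (fun t _ => Tw.step t) (Tw.sq _) (Tw.sq _)
    (fun t ht => absurd ht (not_lt_of_ge (Fin.zero_le _))) fun n => ?_
  refine SelB.reindex (tv := fun t : (unrT W p) => (t : Nat.Primes)) Tw.e (fun t => rfl)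
    (hSel n (Fin (Tw.m + 1) ⊕ Unit) _ _ ?_ ?_)
  · rintro (i | i)
    · exact Or.inl ⟨(Tw.X i).toCmp.hin 1 n, rfl, fun x =>
        Tw.lvOk r.2 hr3 hrp hbN hnew (fun h => hN.mode.mp h) i n x⟩
    · exact Or.inr ⟨fun q hq => hSg q fun h => hq (Finset.mem_union_left _ h),
        good_of_notMem (I.Dn_ne n) (I.hpD₀.trans (I.dvd_Dn n))
          fun q hq h => (I.hΔD₀ q hq h).trans (I.dvd_Dn n), rfl⟩
  · intro q hqS hqp
    rintro (i | i) x σ hσ
    · have hqD : (q : ℕ) ∣ I.D₀ := by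
        rw [hID]
        rw [hIS] at hqS
        rcases (Finset.mem_insert.mp hqS).imp_right (mem_bigS hΔ hp.out).mp with h | h | h
        · rw [h]; exact dvd_mul_left _ _
        · exact absurd h hqp
        · exact ((Int.natCast_dvd.mp h).mul_left _).mul_right _
      exact hin_inertia (Tw.X i).B.hpO I.Ge (RDW_isCyc hΔ hirr hp2) (RDW_hc hΔ hirr hp2)
        ((Tw.X i).toCmp.hin 1 n) x q.2 hqp (Tw.not_sq_dvd_lvl i n x q.2 hqD) (plv_over _ _) hσ
    · have h := tW_inertia (O := O) hΔ hirr q.2 hqp (hss _ q.2) (plv_over _ _) hσ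
      exact h

variable {I}

include K in
/-- **Output of the towers, mode `F`.** -/
theorem finOut_FU (hss : W.IsSemistableModel) (hpO : (p : O) ∈ maximalIdeal O) {r : Nat.Primes}
    (hr3 : (r : ℕ) % 3 = 2) (hrΔ : ¬ ((r : ℕ) : ℤ) ∣ W.Δ) (hrp : (r : ℕ) ≠ p)
    (hIS : I.S = insert r (bigS W p)) (hID : I.D₀ = p * W.Δ.natAbs * r)
    (hSel : ∀ n, SelM (RDW hΔ hirr hp2 O) p ⟨p, hp.out⟩
      (insert r (bigS W p)) (unrT W p)
      I.r (fun j => ⟨(I.c n).q j, (I.c n).prime j⟩))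
    {N : ℕ} (hN : MinLevelU W p N) (hpN : ¬ p ∣ N) (hgood : W.IsGoodPrimeFor p)
    (hnew : NewP W p p) : FinOut W := by
  haveI := charP_res p O
  rw [← hIS] at hSel
  refine finOut_of_selB (b := False) I K hss hpO hr3 hrΔ hrp hIS hID hN
    (iff_of_false hpN not_false) hnew fun n κ _ _ H hbar hH hun => ?_
  refine (hSel n).flat (lflat_RDW hΔ hirr hp2 O I.hζ I.hS (plv_over _ _)) κ _ H hbar
    (fun q hq _ hqp i x τ hτ => hun q hq (fun h => hqp (Subtype.ext h)) i x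
      τ hτ) fun i => ?_
  rcases hH i with ⟨H', e, h⟩ | ⟨hS, hbad, e⟩
  · rw [e]
    exact H'.flT_cd hpO I.Ge _ _ hbar fun x => (h x).2.1 id
  · rw [e]
    exact flT_WC hΔ hirr hp2 O hgood hS hbad hbar

include K in
/-- **Output of the towers, mode `S`.** -/
theorem finOut_SU (hss : W.IsSemistableModel) (hpO : (p : O) ∈ maximalIdeal O) {r : Nat.Primes}
    (hr3 : (r : ℕ) % 3 = 2) (hrΔ : ¬ ((r : ℕ) : ℤ) ∣ W.Δ) (hrp : (r : ℕ) ≠ p)
    (hIS : I.S = insert r (bigS W p)) (hID : I.D₀ = p * W.Δ.natAbs * r)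
    (hSel : ∀ n, SelM (RDW hΔ hirr hp2 O) p ⟨p, hp.out⟩
      (insert r (bigS W p)) (unrT W p)
      I.r (fun j => ⟨(I.c n).q j, (I.c n).prime j⟩))
    {N : ℕ} (hN : MinLevelU W p N) (hpN : p ∣ N) (hpΔ : (p : ℤ) ∣ W.Δ)
    (hnew : NewP W p p) : FinOut W := by
  haveI := charP_res p O
  rw [← hIS] at hSel
  have hA : (plv p hp.out).LiesOverPrime p := plv_over _ _
  obtain ⟨psi, ho, hst⟩ := Fermat.Agent.H25.St.exists_ordD_RDW hΔ hirr hp2 O hpΔ
    (hss p hp.out hpΔ) hA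
  have hchi := RDW_isCyc hΔ hirr hp2 (O := O)
  refine finOut_of_selB (b := True) I K hss hpO hr3 hrΔ hrp hIS hID hN
    (iff_of_true hpN trivial) hnew fun n κ _ _ H hbar hH hun => ?_
  refine (hSel n).strict κ _ H hbar
    (fun q hq _ hqp i x τ hτ => hun q hq (fun h => hqp (Subtype.ext h)) i x
      τ hτ) fun d hd => Fermat.Agent.H25.St.strict_cond H hbar hp2 hchi hA ho (fun i x => ?_) d hd
  have key : ∀ C : CData (RDW hΔ hirr hp2 O) (I.Sn n) (I.Dn n * p).primeFactors,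
      ((∃ H' : HIn (RDW hΔ hirr hp2 O) K p (I.Sn n) (I.Dn n * p).primeFactors,
          C = H'.cd hpO I.Ge (RDW_isCyc hΔ hirr hp2) (RDW_hc hΔ hirr hp2) ∧
          ∀ x, LvOk p True ∅ (H'.np x).N0) ∨
        (∃ (hS : ∀ q : Nat.Primes, q ∉ I.Sn n → (q : ℕ) ≠ p ∧ W.IsGoodPrimeFor q)
          (hbad : ∀ ℓ : ℕ, ℓ.Prime → ℓ ∉ (I.Dn n * p).primeFactors → ℓ ≠ p ∧
            W.IsGoodPrimeFor ℓ), C = WC hΔ hirr hp2 O _ _ hS hbad)) →
      ∀ x, Fermat.Agent.H25.St.StT (plv p hp.out) (RDW hΔ hirr hp2 O).chi psi (C.t x) := by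
    rintro C (⟨H', rfl, h⟩ | ⟨hS, hbad, rfl⟩) x
    · exact Fermat.Agent.H25.St.stT_pt hpO I.Ge _ _ H' hbar hp2 x
        ⟨(h x).2.2.1 trivial, by rw [pow_two]; exact (h x).1⟩ hA ho
        (Fermat.Agent.H25.St.exists_inertia_ne (O := O) hp.out hp2 hA hchi)
    · exact hst
  exact key _ (hH i) x

end

end Fermat.Agent.LU
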